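import Fermat.Agent.S24.H84.Kaehler
import Fermat.Agent.Lib.RR.Defs
import Fermat.Prelude.Def_AlgebraicCurve_IsCurveOver

/-!
# From the RR library's `FF1` to the Prelude's `IsCurveOver` (helper145)

The frozen statement S27 (and its characteristic-free form `S27/H145/CharFree.lean`) is stated
for `AlgebraicCurve.IsCurveOver K F` + `Algebra.EssFiniteType K F`; the modular function fields
on main come with the standing hypotheses `Lib.RR.FF1 K F` of the shared Riemann–Roch library.
This file is the bridge (any characteristic, Mathlib + the two definitions only):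

* `essFiniteType_of_finite x`  : `F` finite over `K(x)` ⟹ `Algebra.EssFiniteType K F`;
* `span_D_eq_top_of_sep x`     : `F / K(x)` separable ⟹ `Ω[F⁄K] = F · dx`;
* `D_ne_zero_of_sep x`         : `x` transcendental, `F / K(x)` finite separable ⟹ `dx ≠ 0`;
* `finrank_kaehler_eq_one x`   : then `dim_F Ω[F⁄K] = 1`;
* `isCurveOver_of_ff1`         : `FF1 K F`, `x` transcendental, `F / K(x)` finite separable
                                 ⟹ `IsCurveOver K F`;
* `isCurveOver_of_ff1_charZero`: in characteristic zero `FF1 K F` alone suffices.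
-/

set_option autoImplicit false
set_option linter.style.haveILetI false

open AlgebraicCurve KaehlerDifferential IntermediateField

namespace Fermat.Agent.S27.H145

variable {K F : Type*} [Field K] [Field F] [Algebra K F]

/-- A finite extension of a simple extension of `K` is essentially of finite type over `K`. -/
theorem essFiniteType_of_finite (x : F) [FiniteDimensional K⟮x⟯ F] :
    Algebra.EssFiniteType K F := by
  haveI h1 : Algebra.EssFiniteType K K⟮x⟯ := by
    rw [IntermediateField.essFiniteType_iff]
    exact ⟨{x}, by simp⟩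
  haveI h2 : Algebra.EssFiniteType K⟮x⟯ F := inferInstance
  exact Algebra.EssFiniteType.comp K K⟮x⟯ F

/-- If `F / K(x)` is separable algebraic, then `D x` spans `Ω[F⁄K]` (any characteristic). -/
theorem span_D_eq_top_of_sep (x : F) [Algebra.IsSeparable K⟮x⟯ F] :
    Submodule.span F {D K F x} = ⊤ := by
  have : Algebra.FormallyUnramified K⟮x⟯ F := Algebra.FormallyUnramified.of_isSeparable _ _
  have : Subsingleton Ω[F⁄K⟮x⟯] := Algebra.FormallyUnramified.subsingleton_kaehlerDifferential
  rw [eq_top_iff]
  intro ω _
  have hex := KaehlerDifferential.exact_mapBaseChange_map K K⟮x⟯ F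
  have h0 : KaehlerDifferential.map K K⟮x⟯ F F ω = 0 := Subsingleton.elim _ _
  obtain ⟨t, rfl⟩ := (hex ω).1 h0
  exact Fermat.Agent.S24.H84.mapBaseChange_mem_span_D x t

/-- If `x` is transcendental over `K` and `F / K(x)` is finite separable, then `dx ≠ 0`. -/
theorem D_ne_zero_of_sep (x : F) (hx : Transcendental K x) [FiniteDimensional K⟮x⟯ F]
    [Algebra.IsSeparable K⟮x⟯ F] : D K F x ≠ 0 := by
  intro h
  have hspan := span_D_eq_top_of_sep (K := K) x
  rw [h] at hspan
  have hsub : Subsingleton Ω[F⁄K] := by
    refine ⟨fun a b => ?_⟩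
    have ha : a ∈ Submodule.span F {(0 : Ω[F⁄K])} := by rw [hspan]; trivial
    have hb : b ∈ Submodule.span F {(0 : Ω[F⁄K])} := by rw [hspan]; trivial
    rw [Submodule.span_zero_singleton, Submodule.mem_bot] at ha hb
    rw [ha, hb]
  haveI : Algebra.FormallyUnramified K F := (Algebra.formallyUnramified_iff K F).2 hsub
  haveI : Algebra.EssFiniteType K F := essFiniteType_of_finite (K := K) x
  haveI : Module.Finite K F := Algebra.FormallyUnramified.finite_of_free K F
  exact hx (Algebra.IsAlgebraic.isAlgebraic x)

/-- `dim_F Ω[F⁄K] = 1` for a separably generated function field of one variable. -/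
theorem finrank_kaehler_eq_one (x : F) (hx : Transcendental K x) [FiniteDimensional K⟮x⟯ F]
    [Algebra.IsSeparable K⟮x⟯ F] : Module.finrank F Ω[F⁄K] = 1 := by
  rw [finrank_eq_one_iff_of_nonzero' (D K F x) (D_ne_zero_of_sep x hx)]
  intro ω
  have hω : ω ∈ Submodule.span F {D K F x} := by
    rw [span_D_eq_top_of_sep (K := K) x]
    trivial
  exact Submodule.mem_span_singleton.1 hω

/-- **The bridge `FF1 ⟹ IsCurveOver`**: a function field of one variable all of whose places
have degree one, with a separating variable. -/
theorem isCurveOver_of_ff1 (h : Fermat.Agent.Lib.RR.FF1 K F) (x : F) (hx : Transcendental K x)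
    [FiniteDimensional K⟮x⟯ F] [Algebra.IsSeparable K⟮x⟯ F] : IsCurveOver K F :=
  { toHasPrincipalDivisors := h.hpd
    finiteResidue := fun v => by
      have h1 : Module.finrank K v.ResidueField = 1 := h.deg_eq_one v
      exact Module.finite_of_finrank_pos (by rw [h1]; exact Nat.one_pos)
    kaehler_free_rank_one := ⟨Module.Free.of_divisionRing F _, finrank_kaehler_eq_one x hx⟩ }

/-- In characteristic zero, `FF1 K F` implies `IsCurveOver K F` and `EssFiniteType`. -/
theorem isCurveOver_of_ff1_charZero [CharZero K] (h : Fermat.Agent.Lib.RR.FF1 K F) :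
    IsCurveOver K F ∧ Algebra.EssFiniteType K F := by
  obtain ⟨x, hx, hfin⟩ := h.exists_finite
  haveI := hfin
  haveI : CharZero K⟮x⟯ := charZero_of_injective_algebraMap (algebraMap K K⟮x⟯).injective
  haveI : Algebra.IsAlgebraic K⟮x⟯ F := Algebra.IsAlgebraic.of_finite _ _
  haveI : Algebra.IsSeparable K⟮x⟯ F := Algebra.IsAlgebraic.isSeparable_of_perfectField
  exact ⟨isCurveOver_of_ff1 h x hx, essFiniteType_of_finite (K := K) x⟩

end Fermat.Agent.S27.H145
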