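import Fermat.Agent.S25
import Fermat.Agent.S26
import Fermat.Agent.S27.TopSmall
import Fermat.Agent.S27.H323.Tensor
import Fermat.Agent.S27.H660.Conn
import Fermat.Agent.S27.H267.Genus
import Fermat.Agent.S27.H443.FFAlgLeaf
import Fermat.Agent.S27.H866.Main
import Fermat.Agent.S27.H386.Grp
import Fermat.Agent.S27.H506.PtsDict
import Fermat.Agent.S27.H970.PicCl
import Fermat.Agent.S27.Dim.D1
import Fermat.Agent.S27.H551.TanGlue
import Fermat.Agent.S27.H351.ChartLoc
import Fermat.Agent.S27.H446.PtsDictA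

/-!
# S27 in EVERY characteristic (helper145)

The frozen statement S27 is stated for `CharZero K`, but none of the leaves of row S27 (nor S25,
S26) uses the characteristic.  This file re-runs the top glue of `Fermat/Agent/S27/TopJac.lean`
without the hypothesis `CharZero K`:

* `jacPackage K F : Nonempty (JacPackage K F)` for `K` algebraically closed of ANY characteristic,
  `IsCurveOver K F`, `Algebra.EssFiniteType K F` (`K`, `F` in one universe);
* `card_torsion K F n hn : Nat.card (Pic0.torsion K F n) = n ^ (2 * genusFF K F)` for every `n`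
  invertible in `K`;
* `card_torsion_prime_pow`, `card_torsion_le`, `finite_torsion` : corollaries in the shapes used
  by the consumers (RIBET WALL-q, leaf Q3 / TORS-LIFT: `#Pic⁰(F_k)[p] = p^(2g)`, `k` the residue
  field at `q ≠ p`).

Everything is assembled from results on main; sorry-free.
-/

set_option autoImplicit false
set_option linter.style.haveILetI false
universe u
open CategoryTheory CategoryTheory.Limits AlgebraicGeometry AlgebraicGeometry.RelPicard
  NeronModelInfra GoodReductionJacobian AlgebraicCurve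
open scoped TensorProduct

namespace Fermat.Agent.S27.H145

open Fermat.Agent.S25 Fermat.Agent.S27

noncomputable section

variable (K F : Type u) [Field K] [Field F] [Algebra K F]

/-- **FF-ALG without `CharZero`**: a function field of a curve has a curve chart. -/
theorem ffChart [IsAlgClosed K] [IsCurveOver K F] [Algebra.EssFiniteType K F] :
    Nonempty (FFChart K F) := by
  obtain ⟨B₀, B₁, B₀₁, _, _, _, _, _, _, _, _, _, _, x, y, e, j₀, j₁, j₀₁, hchart, h₀, h₁,
    hj₀, -, hj₀₁, hfrac, -⟩ := H443.ffalg_of_isCurveOver K F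
  refine ⟨{ B₀ := B₀, B₁ := B₁, B₀₁ := B₀₁, x := x, y := y, e := e, isCurveChart := hchart,
            j₀ := j₀, j₁ := j₁, j₀₁ := j₀₁, j₀₁_algebraMap₀ := h₀, j₀₁_algebraMap₁ := h₁,
            isFracMap := ⟨hj₀₁, fun f => ?_⟩ }⟩
  obtain ⟨a, b, hb, hab⟩ := hfrac f
  refine ⟨algebraMap B₀ B₀₁ a, algebraMap B₀ B₀₁ b, ?_, ?_⟩
  · rw [h₀]
    intro h0
    exact hb (hj₀ (by rw [h0, map_zero]))
  · rw [h₀, h₀]
    exact hab

/-- **MODEL without `CharZero`**: a function field of a curve is the function field of a smooth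
proper integral pointed curve with a two-chart presentation. -/
theorem curveModel [IsAlgClosed K] [IsCurveOver K F] [Algebra.EssFiniteType K F] :
    Nonempty (CurveModel K F) := by
  obtain ⟨X⟩ := ffChart K F
  obtain ⟨C, c, hp, hs, hi, ε, Ch, φ₀, φ₁, φ₀₁, h₀, h₁⟩ :=
    H866.curveScheme K X.B₀ X.B₁ X.B₀₁ X.x X.y X.e X.isCurveChart
  refine ⟨{ C := C, c := c, isProper := hp, smooth := hs, isIntegral := hi, ε := ε, Ch := Ch
            j₀ := X.j₀.comp φ₀.toAlgHom
            j₁ := X.j₁.comp φ₁.toAlgHom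
            j₀₁ := X.j₀₁.comp φ₀₁.toAlgHom
            j₀₁_algebraMap₀ := fun b => ?_
            j₀₁_algebraMap₁ := fun b => ?_
            isFracMap := ⟨?_, fun f => ?_⟩ }⟩
  · show X.j₀₁ (φ₀₁ (algebraMap Ch.B₀ Ch.B₀₁ b)) = X.j₀ (φ₀ b)
    rw [h₀, X.j₀₁_algebraMap₀]
  · show X.j₀₁ (φ₀₁ (algebraMap Ch.B₁ Ch.B₀₁ b)) = X.j₁ (φ₁ b)
    rw [h₁, X.j₀₁_algebraMap₁]
  · exact X.isFracMap.1.comp φ₀₁.injective
  · obtain ⟨a, b, hb, hab⟩ := X.isFracMap.2 f
    refine ⟨φ₀₁.symm a, φ₀₁.symm b, ?_, ?_⟩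
    · show X.j₀₁ (φ₀₁ (φ₀₁.symm b)) ≠ 0
      rwa [AlgEquiv.apply_symm_apply]
    · show f * X.j₀₁ (φ₀₁ (φ₀₁.symm b)) = X.j₀₁ (φ₀₁ (φ₀₁.symm a))
      rwa [AlgEquiv.apply_symm_apply, AlgEquiv.apply_symm_apply]

/-- **JAC without `CharZero`**: the Jacobian package of a function field of a curve over an
algebraically closed field of any characteristic. -/
theorem jacPackage [IsAlgClosed K] [IsCurveOver K F] [Algebra.EssFiniteType K F] :
    Nonempty (JacPackage K F) := by
  obtain ⟨M⟩ := curveModel K F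
  obtain ⟨D, ⟨hrep⟩, hsm, hpr, hgc⟩ := Fermat.Agent.S25.result K M.c M.ε
  obtain ⟨L, hcomm, htens⟩ := H386.grp K M.c M.ε M.Ch D hrep
  have hdim := Dim.main_of_tan_d1 K
      (H551.tan_of_chartAt_loc_ptsDictA K (H351.chartAt K) (H351.loc K) (H446.ptsDictA K))
      M.c M.ε M.Ch D hrep hsm hpr hgc
  obtain ⟨cl, hsurj, hiso, hadd⟩ := H970.picCl K F M
  obtain ⟨ha, hb, hc⟩ := H506.ptsDict K M.c M.ε M.Ch D hrep
  -- the graph of the bijection
  let R : Pic0 K F → SchemeHomOver (specStr K K) D.toBase → Prop := fun x g =>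
    ∃ (G : M.GD) (hG0 : G.degree = 0), cl ⟨G, hG0⟩ = x ∧
      Corr M.Ch K (hrep.poincare.pullbackAlong g).L G
  have hR1 : ∀ x, ∃ g, R x g := fun x => by
    obtain ⟨⟨G, hG0⟩, rfl⟩ := hsurj x
    obtain ⟨g, hg⟩ := hb G hG0
    exact ⟨g, G, hG0, rfl, hg⟩
  have hR2 : ∀ x g g', R x g → R x g' → g = g' := by
    rintro x g g' ⟨G, hG0, hx, hg⟩ ⟨G', hG0', hx', hg'⟩
    exact (hc g g' G G' hg hg').mpr ((hiso ⟨G, hG0⟩ ⟨G', hG0'⟩).mp (hx.trans hx'.symm))
  have hR3 : ∀ g, ∃ x, R x g := fun g => by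
    obtain ⟨G, hG0, hg⟩ := ha g
    exact ⟨cl ⟨G, hG0⟩, G, hG0, rfl, hg⟩
  have hR4 : ∀ x x' g, R x g → R x' g → x = x' := by
    rintro x x' g ⟨G, hG0, rfl, hg⟩ ⟨G', hG0', rfl, hg'⟩
    exact (hiso ⟨G, hG0⟩ ⟨G', hG0'⟩).mpr ((hc g g G G' hg hg').mp rfl)
  choose φ hφ using hR1
  have hφbij : Function.Bijective φ := by
    constructor
    · intro x x' h
      exact hR4 x x' (φ x) (hφ x) (h ▸ hφ x')
    · intro g
      obtain ⟨x, hx⟩ := hR3 g
      exact ⟨x, hR2 x _ _ (hφ x) hx⟩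
  have hφadd : ∀ x y, φ (x + y) = L.mul (specStr K K) (φ x) (φ y) := by
    intro x y
    obtain ⟨G, hG0, hx, hg⟩ := hφ x
    obtain ⟨G', hG0', hy, hg'⟩ := hφ y
    obtain ⟨G'', hG''⟩ :=
      H323.tensorExists K (K ⊗[K] M.Ch.B₀) (K ⊗[K] M.Ch.B₁) (K ⊗[K] M.Ch.B₀₁) G G'
    obtain ⟨hG0'', hcl⟩ := hadd ⟨G, hG0⟩ ⟨G', hG0'⟩ G'' hG''
    have hcorr := htens K (φ x) (φ y) G G' G'' hg hg' hG''
    refine hR2 (x + y) _ _ (hφ (x + y)) ⟨G'', hG0'', ?_, hcorr⟩
    rw [hcl, hx, hy]
  haveI : IsProper D.toBase := hpr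
  haveI : GeometricallyConnected D.toBase := hgc
  refine ⟨{ J := D.P, f := D.toBase, law := L, comm := hcomm
            bundle := ⟨hsm, hpr,
              H660.conn K D.toBase ⟨D.zeroSection, D.zeroSection_toBase⟩, ⟨L⟩⟩
            smoothDim := by rw [H267.genus K F M]; exact hdim
            pts := (Equiv.ofBijective φ hφbij).trans specStrPointEquiv.symm
            pts_add := fun x y => ?_ }⟩
  show specStrPointEquiv.symm (φ (x + y)) =
    L.mul (𝟙 _) (specStrPointEquiv.symm (φ x)) (specStrPointEquiv.symm (φ y))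
  rw [hφadd, specStrPointEquiv_symm_mul]

/-- **S27 in every characteristic**: for the function field `F` of a curve over an algebraically
closed field `K` and every `n` invertible in `K`, `#Pic⁰(F)[n] = n ^ (2 g)`. -/
theorem card_torsion [IsAlgClosed K] [IsCurveOver K F] [Algebra.EssFiniteType K F]
    (n : ℕ) (hn : (n : K) ≠ 0) :
    Nat.card (Pic0.torsion K F n) = n ^ (2 * genusFF K F) := by
  obtain ⟨P⟩ := jacPackage K F
  haveI := P.smoothDim
  have h := Fermat.Agent.S26.result K P.f P.law P.comm P.bundle (genusFF K F) n hn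
  rw [Nat.card_congr (P.torsionEquiv n), h]

/-- The prime power form (the shape of the frozen S27), `ℓ ≠ char K`. -/
theorem card_torsion_prime_pow [IsAlgClosed K] [IsCurveOver K F] [Algebra.EssFiniteType K F]
    (ℓ : ℕ) (hℓ : (ℓ : K) ≠ 0) (k : ℕ) :
    Nat.card (Pic0.torsion K F (ℓ ^ k)) = ℓ ^ (2 * genusFF K F * k) := by
  have hn : ((ℓ ^ k : ℕ) : K) ≠ 0 := by
    rw [Nat.cast_pow]
    exact pow_ne_zero _ hℓ
  rw [card_torsion K F (ℓ ^ k) hn, ← pow_mul]
  congr 1
  ring

/-- The torsion subgroup `Pic⁰(F)[n]` is finite for `n` invertible in `K`. -/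
theorem finite_torsion [IsAlgClosed K] [IsCurveOver K F] [Algebra.EssFiniteType K F]
    (n : ℕ) (hn : (n : K) ≠ 0) : Finite (Pic0.torsion K F n) := by
  apply Nat.finite_of_card_ne_zero
  rw [card_torsion K F n hn]
  have hn0 : n ≠ 0 := by
    rintro rfl
    exact hn Nat.cast_zero
  exact pow_ne_zero _ hn0

/-- The upper bound, in the form asked for by the consumers. -/
theorem card_torsion_le [IsAlgClosed K] [IsCurveOver K F] [Algebra.EssFiniteType K F]
    (n : ℕ) (hn : (n : K) ≠ 0) :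
    Nat.card (Pic0.torsion K F n) ≤ n ^ (2 * genusFF K F) :=
  (card_torsion K F n hn).le

end

end Fermat.Agent.S27.H145
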