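import Fermat.Agent.S27.H145.CharFree
import Fermat.Agent.S27.H145.Bridge
import Fermat.Agent.S18.H383.FF1Modular
import Fermat.Agent.S18.H264.SepModular
import Fermat.Agent.Lib.RR.H864.FF1Modular

/-!
# Torsion of the Jacobians of the modular curves, in every characteristic (helper145)

S27 (characteristic-free form, `CharFree.lean`) applied to the modular function fields:

* `isCurveOver_fullC k N hchar`, `essFiniteType_fullC k N hchar` : the hypotheses of S27 for
  `F_k = modularFunctionFieldFullC k N`, `k` algebraically closed of ANY characteristic in which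
  the primes dividing `N` are invertible;
* `card_torsion_fullC k N hchar n hn` :
  `#Pic⁰(F_k)[n] = n ^ (2 * genusFF k F_k)` for `n` invertible in `k`
  (`Pic0 k F_k` is the Prelude's `JZeroC k N`);
* `isCurveOver_bar N`, `essFiniteType_bar N`, `card_torsion_bar N n hn` : the same over `ℚ̄`
  (`Pic0 ℚ̄ (modularFunctionFieldBar N)` is the Prelude's `JZero N`);
* `card_torsion_JZero N n hn : Nat.card {x : JZero N // n • x = 0} = n ^ (2 g)`.

Consumers: RIBET WALL-q, leaf Q3 / TORS-LIFT (surjectivity of the specialisation map on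
`p`-torsion by counting).
-/

set_option autoImplicit false
universe u

open AlgebraicCurve ModularCurve IntermediateField

namespace Fermat.Agent.S27.H145

noncomputable section

/-! ## Characteristic `q` (and `0`): the fields `modularFunctionFieldFullC k N` -/

section FullC

variable (k : Type u) [Field k] [IsAlgClosed k] (N : ℕ) [NeZero N]

/-- `j`, as an element of `F_k`. -/
abbrev jFullC : modularFunctionFieldFullC k N := ⟨jqModC k, jqModC_mem_full k N⟩

/-- `F_k / k(j)` is separable, in every characteristic. -/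
theorem isSeparable_fullC (hchar : ∀ p : ℕ, p.Prime → p ∣ N → (p : k) ≠ 0) :
    Algebra.IsSeparable k⟮jFullC k N⟯ (modularFunctionFieldFullC k N) := by
  have hfin : FiniteDimensional k⟮jFullC k N⟯ (modularFunctionFieldFullC k N) :=
    Fermat.Agent.S18.H739.finiteDimensional_adjoin_jC k N hchar
  have halg : Algebra.IsAlgebraic k⟮jFullC k N⟯ (modularFunctionFieldFullC k N) :=
    Algebra.IsAlgebraic.of_finite _ _
  obtain ⟨p, hp⟩ := CharP.exists k
  rcases CharP.char_is_prime_or_zero k p with hpp | rfl
  · have : Fact p.Prime := ⟨hpp⟩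
    exact Fermat.Agent.S18.H264.algebra_isSeparable_full k p N
  · have : CharZero k := CharP.charP_to_charZero k
    have : CharZero k⟮jFullC k N⟯ :=
      charZero_of_injective_algebraMap (algebraMap k k⟮jFullC k N⟯).injective
    exact Algebra.IsAlgebraic.isSeparable_of_perfectField

/-- The modular function field over `k` is a curve in the sense of the Prelude. -/
theorem isCurveOver_fullC (hchar : ∀ p : ℕ, p.Prime → p ∣ N → (p : k) ≠ 0) :
    IsCurveOver k (modularFunctionFieldFullC k N) := by
  have hfin : FiniteDimensional k⟮jFullC k N⟯ (modularFunctionFieldFullC k N) :=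
    Fermat.Agent.S18.H739.finiteDimensional_adjoin_jC k N hchar
  have hsep := isSeparable_fullC k N hchar
  exact isCurveOver_of_ff1 (Fermat.Agent.S18.H383.ff1_fullC k N hchar) (jFullC k N)
    (Fermat.Agent.S18.H739.transcendental_jC k N)

/-- The modular function field over `k` is essentially of finite type. -/
theorem essFiniteType_fullC (hchar : ∀ p : ℕ, p.Prime → p ∣ N → (p : k) ≠ 0) :
    Algebra.EssFiniteType k (modularFunctionFieldFullC k N) := by
  have hfin : FiniteDimensional k⟮jFullC k N⟯ (modularFunctionFieldFullC k N) :=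
    Fermat.Agent.S18.H739.finiteDimensional_adjoin_jC k N hchar
  exact essFiniteType_of_finite (K := k) (jFullC k N)

/-- **Torsion of `Pic⁰(X₀(N)_k)`**, `k` algebraically closed of any characteristic prime to `N`,
`n` invertible in `k`: `#Pic⁰(F_k)[n] = n ^ (2 g(F_k))`. -/
theorem card_torsion_fullC (hchar : ∀ p : ℕ, p.Prime → p ∣ N → (p : k) ≠ 0)
    (n : ℕ) (hn : (n : k) ≠ 0) :
    Nat.card (Pic0.torsion k (modularFunctionFieldFullC k N) n) =
      n ^ (2 * genusFF k (modularFunctionFieldFullC k N)) := by
  have h1 := isCurveOver_fullC k N hchar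
  have h2 := essFiniteType_fullC k N hchar
  exact card_torsion k (modularFunctionFieldFullC k N) n hn

/-- The torsion subgroup `Pic⁰(F_k)[n]` is finite. -/
theorem finite_torsion_fullC (hchar : ∀ p : ℕ, p.Prime → p ∣ N → (p : k) ≠ 0)
    (n : ℕ) (hn : (n : k) ≠ 0) :
    Finite (Pic0.torsion k (modularFunctionFieldFullC k N) n) := by
  have h1 := isCurveOver_fullC k N hchar
  have h2 := essFiniteType_fullC k N hchar
  exact finite_torsion k (modularFunctionFieldFullC k N) n hn

end FullC

/-! ## Characteristic `0`: `J₀(N) = Pic⁰(ℚ̄(X₀(N)))` -/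

section Bar

variable (N : ℕ) [NeZero N]

/-- `ℚ̄(X₀(N))` is a curve in the sense of the Prelude. -/
theorem isCurveOver_bar : IsCurveOver (AlgebraicClosure ℚ) (modularFunctionFieldBar N) :=
  (isCurveOver_of_ff1_charZero
    (Fermat.Agent.Lib.RR.H864.ff1_modularFunctionFieldBar N)).1

/-- `ℚ̄(X₀(N))` is essentially of finite type over `ℚ̄`. -/
theorem essFiniteType_bar :
    Algebra.EssFiniteType (AlgebraicClosure ℚ) (modularFunctionFieldBar N) :=
  (isCurveOver_of_ff1_charZero
    (Fermat.Agent.Lib.RR.H864.ff1_modularFunctionFieldBar N)).2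

/-- **Torsion of `J₀(N)`**: `#J₀(N)[n] = n ^ (2 g)`, `g = genusFF ℚ̄ ℚ̄(X₀(N))`. -/
theorem card_torsion_bar (n : ℕ) (hn : n ≠ 0) :
    Nat.card (Pic0.torsion (AlgebraicClosure ℚ) (modularFunctionFieldBar N) n) =
      n ^ (2 * genusFF (AlgebraicClosure ℚ) (modularFunctionFieldBar N)) := by
  have h1 := isCurveOver_bar N
  have h2 := essFiniteType_bar N
  exact card_torsion (AlgebraicClosure ℚ) (modularFunctionFieldBar N) n
    (Nat.cast_ne_zero.2 hn)

/-- The same, as a statement on `{x : J₀(N) // n • x = 0}`. -/
theorem card_torsion_JZero (n : ℕ) (hn : n ≠ 0) :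
    Nat.card {x : JZero N // n • x = 0} =
      n ^ (2 * genusFF (AlgebraicClosure ℚ) (modularFunctionFieldBar N)) := by
  rw [← card_torsion_bar N n hn]
  refine Nat.card_congr (Equiv.subtypeEquivRight fun x => ?_)
  rw [Pic0.mem_torsion, natCast_zsmul]

/-- `J₀(N)[n]` is finite (`n ≠ 0`). -/
theorem finite_torsion_JZero (n : ℕ) (hn : n ≠ 0) : Finite {x : JZero N // n • x = 0} := by
  apply Nat.finite_of_card_ne_zero
  rw [card_torsion_JZero N n hn]
  exact pow_ne_zero _ hn

end Bar

end

end Fermat.Agent.S27.H145
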